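import Fermat.Agent.S55.KummerLoc76.Local
import Fermat.Agent.S55.KummerBr86.Hilbert90Lim
import Fermat.Agent.S55.KummerBr86.KummerLES

/-!
# 49-LOC-KUMMER-BR (iii): `H¹(V, μ_n) = Kˣ/n` and `H²(V, μ_n) = H²(V, Ωˣ)[n]`

Generic part: for any level structure `𝒰` on `Gam` for which `Ωˣ` is smooth and whose levels are
pointwise stabilisers, Hilbert 90 in the limit (`KummerBr86.Hilbert90Lim`) and the Kummer long
exact sequence (`KummerBr86.KummerLES`) give the two identifications.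
Concrete part: `Ω = PadicAlgCl q`, `𝒰 = levelsLoc q` on `Gal(Ω/ℚ_q)` and `levelsSub q K` on
`Gal(Ω/K)`.
-/

set_option autoImplicit false
set_option linter.unusedSectionVars false

namespace Fermat.Agent.S55.KummerLoc76

open Fermat.Agent.S55.Profin15 Fermat.Agent.S55.Profin15.LevelStr
open Fermat.Agent.S55.KummerBr86

section Generic

variable {Gam : Type} [Group Gam] {K0 Om : Type} [Field K0] [Field Om] [Algebra K0 Om]
  (f : Gam →* (Om ≃ₐ[K0] Om)) (𝒰 : LevelStr Gam) (n : ℕ)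

/-- Hilbert 90 in the limit (quote of `KummerBr86.Hilbert90Lim.levelH1_units_eq_zero`). -/
theorem h1_units_eq_zero
    (hcl : ∀ V ∈ 𝒰.levels, ∃ T : Set Om, ∀ s : Gam, s ∈ V ↔ ∀ x ∈ T, f s x = x)
    (x : 𝒰.H1 (unitsRep f)) : x = 0 :=
  Hilbert90Lim.levelH1_units_eq_zero f 𝒰 hcl x

variable (hroot : ∀ x : Om, ∃ y : Om, y ^ n = x) (hB : 𝒰.IsSmooth (unitsRep f))
  (hcl : ∀ V ∈ 𝒰.levels, ∃ T : Set Om, ∀ s : Gam, s ∈ V ↔ ∀ x ∈ T, f s x = x)

include hB in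
/-- `μ_n` is smooth -/
theorem isSmooth_muRep : 𝒰.IsSmooth (muRep f n) := by
  intro m
  obtain ⟨U, hU, h⟩ := hB (muIncl f n m)
  refine ⟨U, hU, fun s hs => torsionIncl_injective (unitsRep f) (n : ℤ) ?_⟩
  exact h s hs

/-- **`H²(𝒰; μ_n) ≃ H²(𝒰; Ωˣ)[n]`** -/
noncomputable def h2MuEquiv :
    𝒰.H2 (muRep f n) ≃ₗ[ℤ] ↥(Submodule.torsionBy ℤ (𝒰.H2 (unitsRep f)) (n : ℤ)) :=
  KummerLES.kummerH2Equiv 𝒰 (n : ℤ) (kummer_shortExact f n hroot) hB (h1_units_eq_zero f 𝒰 hcl)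

theorem coe_h2MuEquiv (x : 𝒰.H2 (muRep f n)) :
    ((h2MuEquiv f 𝒰 n hroot hB hcl x : ↥(Submodule.torsionBy ℤ (𝒰.H2 (unitsRep f)) (n : ℤ))) :
      𝒰.H2 (unitsRep f)) = 𝒰.H2map (muIncl f n) (isEquivariant_torsionIncl _ _) x := rfl

include hroot hB hcl in
/-- `H²(𝒰; μ_n) → H²(𝒰; Ωˣ)` is injective -/
theorem H2map_muIncl_injective :
    Function.Injective (𝒰.H2map (muIncl f n) (isEquivariant_torsionIncl _ _)) :=
  KummerLES.H2map_injective 𝒰 (kummer_shortExact f n hroot) hB (h1_units_eq_zero f 𝒰 hcl)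

include hroot hB in
/-- the image of `H²(𝒰; μ_n)` in `H²(𝒰; Ωˣ)` is the `n`-torsion -/
theorem mem_range_H2map_muIncl_iff (x : 𝒰.H2 (unitsRep f)) :
    x ∈ LinearMap.range (𝒰.H2map (muIncl f n) (isEquivariant_torsionIncl _ _)) ↔
      (n : ℤ) • x = 0 :=
  KummerLES.mem_range_H2map_iff 𝒰 (n : ℤ) (kummer_shortExact f n hroot) hB x

/-- **`H¹(𝒰; μ_n) ≃ (Ωˣ)^Gam / n`** -/
noncomputable def h1MuEquiv :
    (↥(LevelStr.H0 (unitsRep f)) ⧸ LinearMap.range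
      ((n : ℤ) • LinearMap.id : ↥(LevelStr.H0 (unitsRep f)) →ₗ[ℤ] ↥(LevelStr.H0 (unitsRep f))))
      ≃ₗ[ℤ] 𝒰.H1 (muRep f n) :=
  KummerLES.kummerH1Equiv 𝒰 (n : ℤ) (kummer_shortExact f n hroot) hB (h1_units_eq_zero f 𝒰 hcl)

end Generic

section Local

variable (q : ℕ) [Fact q.Prime]

/-- Hilbert 90 for `Gal(Ω/ℚ_q)`: level-`H¹(Ωˣ) = 0` -/
theorem h1_unitsLoc_eq_zero (x : (levelsLoc q).H1 (unitsRep (MonoidHom.id (Gloc q)))) : x = 0 :=
  h1_units_eq_zero (MonoidHom.id (Gloc q)) (levelsLoc q) (levels_pointwise q) x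

/-- `H²(G_q; μ_n) ≃ H²(G_q; Ωˣ)[n]` -/
noncomputable def h2MuLocEquiv (n : ℕ) (hn : n ≠ 0) :
    (levelsLoc q).H2 (muRep (MonoidHom.id (Gloc q)) n) ≃ₗ[ℤ]
      ↥(Submodule.torsionBy ℤ ((levelsLoc q).H2 (unitsRep (MonoidHom.id (Gloc q)))) (n : ℤ)) :=
  h2MuEquiv (MonoidHom.id (Gloc q)) (levelsLoc q) n (hroot_padicAlgCl q n hn)
    (isSmooth_unitsRep q) (levels_pointwise q)

variable (K : IntermediateField ℚ_[q] (PadicAlgCl q))

/-- Hilbert 90 for `Gal(Ω/K)`: level-`H¹(Ωˣ) = 0` -/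
theorem h1_unitsSub_eq_zero (x : (levelsSub q K).H1 (unitsRep K.fixingSubgroup.subtype)) :
    x = 0 :=
  h1_units_eq_zero K.fixingSubgroup.subtype (levelsSub q K) (levels_pointwise_sub q K) x

/-- `H²(Gal(Ω/K); μ_n) ≃ H²(Gal(Ω/K); Ωˣ)[n]` (`= Br(K)[n]`) -/
noncomputable def h2MuSubEquiv (n : ℕ) (hn : n ≠ 0) :
    (levelsSub q K).H2 (muRep K.fixingSubgroup.subtype n) ≃ₗ[ℤ]
      ↥(Submodule.torsionBy ℤ ((levelsSub q K).H2 (unitsRep K.fixingSubgroup.subtype)) (n : ℤ)) :=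
  h2MuEquiv K.fixingSubgroup.subtype (levelsSub q K) n (hroot_padicAlgCl q n hn)
    (isSmooth_unitsRep_sub q K) (levels_pointwise_sub q K)

/-- the invariants of `Gal(Ω/K)` on `Ωˣ` are `Kˣ` -/
noncomputable def h0Equiv :
    ↥(LevelStr.H0 (unitsRep K.fixingSubgroup.subtype)) ≃+ Additive Kˣ where
  toFun x := Additive.ofMul (Units.mk0
    (⟨((toUnit _ (x : unitsRep K.fixingSubgroup.subtype) : (PadicAlgCl q)ˣ) : PadicAlgCl q),
      mem_of_fixed q K _ (fun s hs => by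
        have := congrArg (fun y => ((toUnit _ y : (PadicAlgCl q)ˣ) : PadicAlgCl q))
          (x.2 ⟨s, hs⟩)
        exact this)⟩ : K)
    (fun h0 => (toUnit _ (x : unitsRep K.fixingSubgroup.subtype)).ne_zero
      (congrArg Subtype.val h0)))
  invFun a := ⟨ofUnit _ (Units.map (algebraMap K (PadicAlgCl q) : K →* PadicAlgCl q)
      (Additive.toMul a)), fun s => by
    apply toUnit_injective
    rw [toUnit_ρ, toUnit_ofUnit]
    apply Units.ext
    rw [Units.coe_map, Units.coe_map]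
    exact fixed_of_mem q K _ (Additive.toMul a : Kˣ).1.2 s.1 s.2⟩
  left_inv x := by
    apply Subtype.ext
    apply toUnit_injective
    apply Units.ext
    rfl
  right_inv a := by
    apply Additive.toMul.injective
    apply Units.ext
    apply Subtype.ext
    rfl
  map_add' x y := by
    apply Additive.toMul.injective
    apply Units.ext
    apply Subtype.ext
    rfl

theorem coe_h0Equiv (x : ↥(LevelStr.H0 (unitsRep K.fixingSubgroup.subtype))) :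
    (((Additive.toMul (h0Equiv q K x) : Kˣ) : K) : PadicAlgCl q) =
      ((toUnit _ (x : unitsRep K.fixingSubgroup.subtype) : (PadicAlgCl q)ˣ) : PadicAlgCl q) := rfl

/-- `H¹(Gal(Ω/K); μ_n) ≃ (Ωˣ)^{Gal(Ω/K)}/n`, to be composed with `h0Equiv` (`= Kˣ/n`) -/
noncomputable def h1MuSubEquiv (n : ℕ) (hn : n ≠ 0) :
    (↥(LevelStr.H0 (unitsRep K.fixingSubgroup.subtype)) ⧸ LinearMap.range
      ((n : ℤ) • LinearMap.id : ↥(LevelStr.H0 (unitsRep K.fixingSubgroup.subtype)) →ₗ[ℤ] _))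
      ≃ₗ[ℤ] (levelsSub q K).H1 (muRep K.fixingSubgroup.subtype n) :=
  h1MuEquiv K.fixingSubgroup.subtype (levelsSub q K) n (hroot_padicAlgCl q n hn)
    (isSmooth_unitsRep_sub q K) (levels_pointwise_sub q K)

end Local

end Fermat.Agent.S55.KummerLoc76
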