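import Fermat.Agent.S55.Profin15.Exact
import Fermat.Agent.S55.Profin15.Functor

/-!
# 49-LOC-KUMMER-BR (ii): the Kummer short exact sequence `0 → μ_n → Ωˣ → Ωˣ → 0`

Part 1 (generic, any coefficient ring `k`): for `B : Rep k G` and `c : k`, the map
`smulMap B c = c • id`, its kernel `torsionRep B c` and the short exact sequence
`0 → B[c] → B → B → 0` when `c • ·` is surjective.

Part 2 (model-free Kummer): `Gam` any group acting on a field `Om` through
`f : Gam →* (Om ≃ₐ[K0] Om)`, `unitsRep f = Rep.res f (Rep.ofAlgebraAutOnUnits K0 Om)` (the shape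
used by `KummerBr86.Hilbert90Lim`), `muRep f n` its `n`-torsion subrepresentation.
-/

set_option autoImplicit false

universe u

namespace Fermat.Agent.S55.KummerLoc76

open Fermat.Agent.S55.Profin15 Fermat.Agent.S55.Profin15.LevelStr

section Torsion

variable {k G : Type u} [CommRing k] [Group G] (B : Rep k G) (c : k)

/-- multiplication by `c` -/
noncomputable def smulMap : B →ₗ[k] B := c • LinearMap.id

theorem smulMap_apply (x : B) : smulMap B c x = c • x := rfl

theorem isEquivariant_smulMap : IsEquivariant (smulMap B c) := by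
  intro g a
  rw [smulMap_apply, smulMap_apply, map_smul]

/-- the `c`-torsion submodule -/
noncomputable def torsionSub : Submodule k B := LinearMap.ker (smulMap B c)

theorem mem_torsionSub_iff (x : B) : x ∈ torsionSub B c ↔ c • x = 0 := by
  unfold torsionSub
  rw [LinearMap.mem_ker, smulMap_apply]

theorem torsionSub_le_comap (g : G) : torsionSub B c ≤ (torsionSub B c).comap (B.ρ g) := by
  intro x hx
  rw [Submodule.mem_comap, mem_torsionSub_iff] at *
  rw [← map_smul, hx, map_zero]

/-- the `c`-torsion subrepresentation -/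
noncomputable def torsionRep : Rep k G :=
  Rep.subrepresentation B (torsionSub B c) (torsionSub_le_comap B c)

/-- the inclusion `B[c] → B` -/
noncomputable def torsionIncl : torsionRep B c →ₗ[k] B := (torsionSub B c).subtype

theorem torsionIncl_mem (x : torsionRep B c) : torsionIncl B c x ∈ torsionSub B c :=
  (show ↥(torsionSub B c) from x).2

theorem smul_torsionIncl (x : torsionRep B c) : c • torsionIncl B c x = 0 :=
  (mem_torsionSub_iff B c _).1 (torsionIncl_mem B c x)

theorem exists_torsionIncl_eq (y : B) (hy : c • y = 0) : ∃ x : torsionRep B c, torsionIncl B c x = y :=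
  ⟨(⟨y, (mem_torsionSub_iff B c y).2 hy⟩ : ↥(torsionSub B c)), rfl⟩

theorem torsionIncl_injective : Function.Injective (torsionIncl B c) := Subtype.val_injective

theorem isEquivariant_torsionIncl : IsEquivariant (torsionIncl B c) := fun _ _ => rfl

/-- `0 → B[c] → B → B → 0` is short exact as soon as `c • ·` is surjective -/
theorem shortExact_torsion (hsurj : Function.Surjective (smulMap B c)) :
    ShortExact (torsionIncl B c) (smulMap B c) where
  equivariant_left := isEquivariant_torsionIncl B c
  equivariant_right := isEquivariant_smulMap B c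
  injective := Subtype.val_injective
  surjective := hsurj
  exact := by
    intro x
    constructor
    · intro hx
      exact ⟨⟨x, hx⟩, rfl⟩
    · rintro ⟨a, rfl⟩
      exact a.2

variable (𝒰 : LevelStr G)

/-- `c • ·` induces multiplication by `c` on `H²` -/
theorem H2map_smulMap (x : 𝒰.H2 B) :
    𝒰.H2map (smulMap B c) (isEquivariant_smulMap B c) x = c • x := by
  obtain ⟨z, rfl⟩ := Submodule.mkQ_surjective _ x
  change 𝒰.H2map (smulMap B c) (isEquivariant_smulMap B c) (𝒰.H2π B z) = c • 𝒰.H2π B z
  rw [H2map_H2π, ← map_smul]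
  congr 1

/-- `c • ·` induces multiplication by `c` on `H¹` -/
theorem H1map_smulMap (x : 𝒰.H1 B) :
    𝒰.H1map (smulMap B c) (isEquivariant_smulMap B c) x = c • x := by
  obtain ⟨z, rfl⟩ := Submodule.mkQ_surjective _ x
  change 𝒰.H1map (smulMap B c) (isEquivariant_smulMap B c) (𝒰.H1π B z) = c • 𝒰.H1π B z
  rw [H1map_H1π, ← map_smul]
  congr 1

/-- `c • ·` induces multiplication by `c` on `H⁰` -/
theorem H0map_smulMap (x : ↥(H0 B)) :
    H0map (smulMap B c) (isEquivariant_smulMap B c) x = c • x := rfl

end Torsion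

section Kummer

variable {Gam : Type} [Group Gam] {K0 Om : Type} [Field K0] [Field Om] [Algebra K0 Om]
  (f : Gam →* (Om ≃ₐ[K0] Om))

/-- the units of `Om` as a `ℤ`-representation of `Gam` -/
noncomputable abbrev unitsRep : Rep ℤ Gam := Rep.res f (Rep.ofAlgebraAutOnUnits K0 Om)

/-- an element of `unitsRep f` as a unit -/
def toUnit (x : unitsRep f) : Omˣ := Additive.toMul (show Additive Omˣ from x)

/-- a unit as an element of `unitsRep f` -/
def ofUnit (u : Omˣ) : unitsRep f := (Additive.ofMul u : Additive Omˣ)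

@[simp] theorem toUnit_ofUnit (u : Omˣ) : toUnit f (ofUnit f u) = u := rfl
@[simp] theorem ofUnit_toUnit (x : unitsRep f) : ofUnit f (toUnit f x) = x := rfl

theorem toUnit_injective : Function.Injective (toUnit f) := fun _ _ h => h

theorem toUnit_add (x y : unitsRep f) : toUnit f (x + y) = toUnit f x * toUnit f y := rfl

theorem toUnit_zero : toUnit f (0 : unitsRep f) = 1 := rfl

theorem toUnit_ρ (g : Gam) (x : unitsRep f) :
    toUnit f ((unitsRep f).ρ g x) = Units.map ((f g : Om ≃ₐ[K0] Om) : Om →* Om) (toUnit f x) :=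
  rfl

theorem toUnit_smulMap (c : ℤ) (x : unitsRep f) :
    toUnit f (smulMap (unitsRep f) c x) = toUnit f x ^ c := by
  rw [smulMap_apply]
  have h1 := int_smul_eq_zsmul (unitsRep f).hV2 c x
  exact (congrArg (toUnit f) h1).trans rfl

/-- the `n`-th power map -/
noncomputable def powMap (n : ℕ) := smulMap (unitsRep f) (n : ℤ)

theorem toUnit_powMap (n : ℕ) (x : unitsRep f) : toUnit f (powMap f n x) = toUnit f x ^ n := by
  unfold powMap
  rw [toUnit_smulMap, zpow_natCast]

/-- `μ_n(Om)` as a `ℤ`-representation of `Gam` -/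
noncomputable def muRep (n : ℕ) : Rep ℤ Gam := torsionRep (unitsRep f) (n : ℤ)

/-- the inclusion `μ_n → Omˣ` -/
noncomputable def muIncl (n : ℕ) := torsionIncl (unitsRep f) (n : ℤ)

theorem mem_muSub_iff (n : ℕ) (x : unitsRep f) :
    x ∈ torsionSub (unitsRep f) (n : ℤ) ↔ toUnit f x ^ n = 1 := by
  unfold torsionSub
  rw [LinearMap.mem_ker]
  constructor
  · intro h
    have := congrArg (toUnit f) h
    rwa [toUnit_smulMap, zpow_natCast, toUnit_zero] at this
  · intro h
    apply toUnit_injective f
    rw [toUnit_smulMap, zpow_natCast, toUnit_zero, h]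

theorem toUnit_muIncl_pow (n : ℕ) (x : muRep f n) : toUnit f (muIncl f n x) ^ n = 1 :=
  (mem_muSub_iff f n _).1 (torsionIncl_mem (unitsRep f) (n : ℤ) x)

theorem exists_muIncl_eq (n : ℕ) (u : Omˣ) (hu : u ^ n = 1) :
    ∃ x : muRep f n, toUnit f (muIncl f n x) = u := by
  have hmem : ofUnit f u ∈ torsionSub (unitsRep f) (n : ℤ) := (mem_muSub_iff f n _).2 hu
  exact ⟨(⟨ofUnit f u, hmem⟩ : ↥(torsionSub (unitsRep f) (n : ℤ))), rfl⟩

theorem powMap_surjective (n : ℕ) (hroot : ∀ x : Om, ∃ y : Om, y ^ n = x) :
    Function.Surjective (powMap f n) := by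
  intro x
  obtain ⟨y, hy⟩ := hroot ((toUnit f x : Omˣ) : Om)
  have hy0 : y ≠ 0 := by
    rintro rfl
    obtain ⟨z, hz⟩ := hroot 0
    rcases Nat.eq_zero_or_pos n with hn | hn
    · subst hn
      rw [pow_zero] at hz
      exact one_ne_zero hz
    · rw [zero_pow hn.ne'] at hy
      exact (toUnit f x).ne_zero hy.symm
  refine ⟨ofUnit f (Units.mk0 y hy0), ?_⟩
  apply toUnit_injective f
  rw [toUnit_powMap, toUnit_ofUnit]
  apply Units.ext
  rw [Units.val_pow_eq_pow_val]
  exact hy

/-- **(ii) Kummer sequence** `0 → μ_n → Omˣ → Omˣ → 0` when `Om` has all `n`-th roots. -/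
theorem kummer_shortExact (n : ℕ) (hroot : ∀ x : Om, ∃ y : Om, y ^ n = x) :
    ShortExact (muIncl f n) (powMap f n) :=
  shortExact_torsion (unitsRep f) (n : ℤ) (powMap_surjective f n hroot)

end Kummer

end Fermat.Agent.S55.KummerLoc76
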