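import Fermat.Agent.S55.KummerLoc76.Kummer
import Fermat.Agent.S55.Profin15.Local
import Fermat.Agent.S55.Krasner81

/-!
# 49-LOC-KUMMER-BR (ii), concrete part: `Ω = PadicAlgCl q` with the local level structure

`𝒱 q = Profin15.pullLevels (localGaloisToGlobal q)` on `G = Gal(Ω/ℚ_q)`.
* `isSmooth_unitsRep` : `Ωˣ` is smooth for `𝒱 q`;
* `levels_pointwise` : every level is a pointwise stabiliser (hypothesis `hcl` of
  `KummerBr86.levelH1_units_eq_zero`);
* the same after restriction to `Gal(Ω/K)`;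
* `mem_of_fixed` : the invariants of `Gal(Ω/K)` on `Ωˣ` are `Kˣ`.
-/

set_option autoImplicit false
set_option linter.unusedSectionVars false
set_option linter.style.haveILetI false

namespace Fermat.Agent.S55.KummerLoc76

open Fermat.Agent.S55.Profin15 Fermat.Agent.S55.Profin15.LevelStr
open Fermat.Agent.Lib.FrobeniusExists (Qb GQ isAlgebraic_Qb isAlgClosure_Qb isGalois_Qb)

attribute [local instance] isAlgebraic_Qb isAlgClosure_Qb isGalois_Qb

open scoped IntermediateField

variable (q : ℕ) [Fact q.Prime]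

/-- the local Galois group -/
abbrev Gloc : Type := PadicAlgCl q ≃ₐ[ℚ_[q]] PadicAlgCl q

/-- the local level structure -/
noncomputable def levelsLoc : LevelStr (Gloc q) := pullLevels (localGaloisToGlobal q)

theorem isGalois_padicAlgCl : IsGalois ℚ_[q] (PadicAlgCl q) := {}

/-- `Ω` has all `n`-th roots (`n ≠ 0`) -/
theorem hroot_padicAlgCl (n : ℕ) (hn : n ≠ 0) : ∀ x : PadicAlgCl q, ∃ y : PadicAlgCl q, y ^ n = x :=
  fun x => IsAlgClosed.exists_pow_nat_eq x (Nat.pos_of_ne_zero hn)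

/-- every element of `Ω` is fixed by some level -/
theorem exists_level_fixing (x : PadicAlgCl q) :
    ∃ V ∈ (levelsLoc q).levels, ∀ s ∈ V, (s : Gloc q) x = x := by
  have hint : IsIntegral ℚ_[q] x := (PadicAlgCl.isAlgebraic q).isIntegral.1 x
  haveI : FiniteDimensional ℚ_[q] ℚ_[q]⟮x⟯ := IntermediateField.adjoin.finiteDimensional hint
  obtain ⟨F, hF, hFL⟩ := Krasner81.exists_level q ℚ_[q]⟮x⟯
  haveI := hF
  obtain ⟨U, hU, hle⟩ := exists_allLevel_le F
  refine ⟨U.comap (localGaloisToGlobal q), ⟨U, hU, rfl⟩, fun s hs => ?_⟩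
  have h1 : s ∈ (ℚ_[q]⟮x⟯).fixingSubgroup := hFL s (hle hs)
  exact (IntermediateField.mem_fixingSubgroup_iff _ _).1 h1 x
    (IntermediateField.mem_adjoin_simple_self _ x)

/-- **smoothness** of `Ωˣ` for the local level structure -/
theorem isSmooth_unitsRep : (levelsLoc q).IsSmooth (unitsRep (MonoidHom.id (Gloc q))) := by
  intro x
  obtain ⟨V, hV, h⟩ := exists_level_fixing q ((toUnit _ x : (PadicAlgCl q)ˣ) : PadicAlgCl q)
  refine ⟨V, hV, fun s hs => ?_⟩
  apply toUnit_injective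
  rw [toUnit_ρ]
  apply Units.ext
  rw [Units.coe_map]
  exact h s hs

/-- **levels are pointwise stabilisers** -/
theorem levels_pointwise : ∀ V ∈ (levelsLoc q).levels, ∃ T : Set (PadicAlgCl q),
    ∀ s : Gloc q, s ∈ V ↔ ∀ x ∈ T, s x = x := by
  rintro V ⟨U, ⟨_, F, _, rfl⟩, rfl⟩
  refine ⟨padicEmbedding q '' (F : Set Qb), fun s => ?_⟩
  rw [Subgroup.mem_comap, IntermediateField.mem_fixingSubgroup_iff]
  constructor
  · rintro h _ ⟨x, hx, rfl⟩
    exact (Krasner81.localGaloisToGlobal_apply_eq_iff q s x).1 (h x hx)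
  · intro h x hx
    exact (Krasner81.localGaloisToGlobal_apply_eq_iff q s x).2 (h _ ⟨x, hx, rfl⟩)

section Sub

variable (K : IntermediateField ℚ_[q] (PadicAlgCl q))

/-- the level structure on `Gal(Ω/K)` -/
noncomputable def levelsSub : LevelStr ↥K.fixingSubgroup :=
  (levelsLoc q).comap K.fixingSubgroup.subtype

theorem isSmooth_unitsRep_sub :
    (levelsSub q K).IsSmooth (unitsRep K.fixingSubgroup.subtype) := by
  intro x
  obtain ⟨V, hV, h⟩ := exists_level_fixing q ((toUnit _ x : (PadicAlgCl q)ˣ) : PadicAlgCl q)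
  refine ⟨V.comap K.fixingSubgroup.subtype, ⟨V, hV, rfl⟩, fun s hs => ?_⟩
  apply toUnit_injective
  rw [toUnit_ρ]
  apply Units.ext
  rw [Units.coe_map]
  exact h s hs

theorem levels_pointwise_sub : ∀ V ∈ (levelsSub q K).levels, ∃ T : Set (PadicAlgCl q),
    ∀ s : ↥K.fixingSubgroup, s ∈ V ↔ ∀ x ∈ T, (s : Gloc q) x = x := by
  rintro V ⟨U, hU, rfl⟩
  obtain ⟨T, hT⟩ := levels_pointwise q U hU
  exact ⟨T, fun s => hT s⟩

/-- **invariants**: a unit of `Ω` fixed by `Gal(Ω/K)` lies in `K` -/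
theorem mem_of_fixed (u : PadicAlgCl q) (hu : ∀ s ∈ K.fixingSubgroup, (s : Gloc q) u = u) :
    u ∈ K := by
  haveI := isGalois_padicAlgCl q
  rw [← InfiniteGalois.fixedField_fixingSubgroup K, IntermediateField.mem_fixedField_iff]
  exact hu

theorem fixed_of_mem (u : PadicAlgCl q) (hu : u ∈ K) (s : Gloc q) (hs : s ∈ K.fixingSubgroup) :
    s u = u :=
  (IntermediateField.mem_fixingSubgroup_iff _ _).1 hs u hu

end Sub

end Fermat.Agent.S55.KummerLoc76
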